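import Fermat.Agent.S15.H975.Top
import Fermat.Agent.S12.H291.Route

/-!
# Row S12: the PLAIN TOP (row-lead helper975)

`S12_top` is the frozen statement S12 (no Galois-stable cofixed line for `p ≥ 17`),
unconditional: helper291's route `S12.H291.s12_of_route` with the nodes of row S15
(`S15/H975/Top.lean`) and the specialisation node `H602.spStatement602`.

Consumers (row S09, packers): import THIS file, never `Fermat/Agent/S12.lean`.
-/

set_option autoImplicit false

noncomputable section

open WeierstrassCurve WeierstrassCurve.Affine WeierstrassCurve.Affine.Point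
open FreyPackage

namespace Fermat.Agent.S12.H975

/-- **The frozen statement S12**, unconditional. -/
theorem S12_top (P : FreyPackage) (hp : 17 ≤ P.p) :
    ¬ HasGaloisStableCofixedLine (K := AlgebraicClosure ℚ) ℚ P.freyCurve P.p :=
  Fermat.Agent.S12.H291.s12_of_route
    (fun p hp h17 =>
      haveI : NeZero p := ⟨hp.ne_zero⟩
      fun q hq hqp A hA P₀ hP₀ =>
        Fermat.Agent.S15.H602.spStatement602 p hp (by omega) q hq hqp A hA P₀ hP₀)
    (fun p _ hp hp5 => Fermat.Agent.S15.H975.mordellWeil p hp hp5)
    Fermat.Agent.S15.H302.alg0 Fermat.Agent.S15.H975.divStatement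
    Fermat.Agent.S15.H975.selStatement P hp

end Fermat.Agent.S12.H975

end
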